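/-
S33 / package S33-CONN (helper1), part 1: **a connected function-model order has no non-zero
subquotient on which inertia acts trivially** (finding #104 (2)), for an arbitrary `FFModel`
(helper2's `Lib/TW/Flat`).

* `s33c_eq_zero_of_prime_ne` : a connected point killed by a prime `q ≠ p` is `0`;
* `s33c_eq_zero_of_fixed'`   : a connected point fixed by inertia is `0` (`p` odd; no hypothesis on
  the order of the point);
* `s33c_ff_no_trivial_subquotient` : if all points of the `I`-stable subgroup `B` are connected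
  (`OrdGT · 0`) and `I` acts trivially on `B / A`, then `B ≤ A`.
-/
import Fermat.Agent.Lib.TW.Flat.Place
import Fermat.Agent.Lib.TW.Flat.ModelQuot
import Fermat.Agent.Lib.TW.LF.ValLemmas

set_option autoImplicit false
set_option linter.style.haveILetI false
set_option linter.unusedSectionVars false

namespace Fermat.Agent.S33C

open Fermat.Agent.TW Fermat.Agent.S05Lib

local notation "Qb" => AlgebraicClosure ℚ
local notation "GQ" => (AlgebraicClosure ℚ ≃ₐ[ℚ] AlgebraicClosure ℚ)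

variable {𝔓 : FFPlace} {X : Type*} [AddCommGroup X] {act : GQ → X →+ X}

/-- a connected point killed by a prime `q ≠ p` vanishes -/
theorem s33c_eq_zero_of_prime_ne (M : FFModel 𝔓 X act) {q : ℕ} (hq : q.Prime) (hqp : q ≠ 𝔓.p)
    {y : X} (hqy : q • y = 0) (hgt : M.OrdGT y 0) : y = 0 := by
  by_contra hy
  obtain ⟨s, hs0, hge, f, hf, hfy⟩ := FFModel.exists_ord (M := M) hy
  have hs : 0 < s := by
    rcases hgt f hf.1 hf.2 with h | h
    · exact absurd h hfy.1
    · rw [hfy.2] at h; exact h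
  have hj := FFModel.jet_nsmul hs0 hge hf q
  rw [hqy, hf.2, zero_sub] at hj
  have hqn : ¬ 𝔓.p ∣ q := fun h => hqp ((Nat.prime_dvd_prime_iff_eq 𝔓.hp hq).mp h).symm
  have hq0 : 𝔓.v.Is ((q : ℕ) : Qb) 0 := 𝔓.lf_is_natCast hqn
  have h1 : 𝔓.v.Is (-((q : Qb) * f y)) s := by
    have := (hq0.mul hfy).neg
    rwa [zero_add] at this
  exact h1.not_ge hj (by linarith)

/-- a connected point fixed by inertia vanishes (`p` odd) -/
theorem s33c_eq_zero_of_fixed' [Finite X] (M : FFModel 𝔓 X act) (hp2 : 2 < 𝔓.p) {y : X}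
    (hgt : M.OrdGT y 0) (hfix : ∀ σ ∈ 𝔓.I, act σ y = y) : y = 0 := by
  by_contra hy
  have hn : addOrderOf y ≠ 1 := fun h => hy (AddMonoid.addOrderOf_eq_one_iff.mp h)
  obtain ⟨q, hq, hqn⟩ := Nat.exists_prime_and_dvd hn
  obtain ⟨k, hk⟩ := hqn
  set y' : X := k • y with hy'
  have hqy' : q • y' = 0 := by
    rw [hy', smul_smul, ← hk]
    exact addOrderOf_nsmul_eq_zero y
  have hy'0 : y' ≠ 0 := by
    intro h0
    have hdvd : addOrderOf y ∣ k := addOrderOf_dvd_of_nsmul_eq_zero h0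
    have hpos : 0 < addOrderOf y := addOrderOf_pos y
    rw [hk] at hdvd hpos
    have hk0 : 0 < k := by
      rcases Nat.eq_zero_or_pos k with h | h
      · rw [h, mul_zero] at hpos; exact absurd hpos (lt_irrefl 0)
      · exact h
    have := Nat.le_of_dvd hk0 hdvd
    have h2 := hq.two_le
    nlinarith
  have hgt' : M.OrdGT y' 0 := hgt.nsmul k
  have hfix' : ∀ σ ∈ 𝔓.I, act σ y' = y' := by
    intro σ hσ
    rw [hy', map_nsmul, hfix σ hσ]
  by_cases hqp : q = 𝔓.p
  · exact hy'0 (FFModel.eq_zero_of_fixed 𝔓.lf_unr hp2 (hqp ▸ hqy') hgt' hfix')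
  · exact hy'0 (s33c_eq_zero_of_prime_ne M hq hqp hqy' hgt')

/-- **(F3) for function-model orders.**  If every point of the `I`-stable subgroup `B` is
connected and `I` acts trivially on `B / A`, then `B ≤ A`. -/
theorem s33c_ff_no_trivial_subquotient [Finite X] (M : FFModel 𝔓 X act) (hp2 : 2 < 𝔓.p)
    (A B : AddSubgroup X) (hconn : ∀ y ∈ B, M.OrdGT y 0)
    (hB : ∀ σ ∈ 𝔓.I, ∀ x ∈ B, act σ x ∈ B)
    (htriv : ∀ σ ∈ 𝔓.I, ∀ x ∈ B, act σ x - x ∈ A) : B ≤ A := by
  classical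
  -- the action on `B`
  let actB : GQ → ↥B →+ ↥B := fun σ =>
    if h : σ ∈ 𝔓.I then ((act σ).comp B.subtype).codRestrict B (fun x => hB σ h x x.2)
    else AddMonoidHom.id ↥B
  have hactB : ∀ σ ∈ 𝔓.I, ∀ y : ↥B, B.subtype (actB σ y) = act σ (B.subtype y) := by
    intro σ hσ y
    simp only [actB, dif_pos hσ]
    rfl
  let MB : FFModel 𝔓 ↥B actB := M.comap B.subtype B.subtype_injective hactB
  -- the quotient
  let A' : AddSubgroup ↥B := A.addSubgroupOf B
  let π : ↥B →+ ↥B ⧸ A' := QuotientAddGroup.mk' A'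
  have hπ : Function.Surjective π := QuotientAddGroup.mk'_surjective A'
  let actY : GQ → (↥B ⧸ A') →+ (↥B ⧸ A') := fun _ => AddMonoidHom.id _
  have hactY : ∀ σ ∈ 𝔓.I, ∀ x : ↥B, π (actB σ x) = actY σ (π x) := by
    intro σ hσ x
    show π (actB σ x) = π x
    rw [← sub_eq_zero, ← map_sub, QuotientAddGroup.mk'_apply, QuotientAddGroup.eq_zero_iff,
      AddSubgroup.mem_addSubgroupOf]
    have := htriv σ hσ x.1 x.2
    rw [AddSubgroup.coe_sub]
    have h2 : ((actB σ x : ↥B) : X) = act σ x.1 := hactB σ hσ x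
    rw [h2]
    exact this
  let MY : FFModel 𝔓 (↥B ⧸ A') actY := MB.quot 𝔓.lf_unr π hπ hactY
  intro x hx
  have h1 : MB.OrdGT (⟨x, hx⟩ : ↥B) 0 := by
    rw [FFModel.ordGT_comap_iff]
    exact hconn x hx
  have h2 : MY.OrdGT (π ⟨x, hx⟩) 0 := FFModel.OrdGT.quot MB 𝔓.lf_unr π hπ hactY h1
  have h3 : π ⟨x, hx⟩ = 0 := s33c_eq_zero_of_fixed' MY hp2 h2 (fun σ _ => rfl)
  rw [QuotientAddGroup.mk'_apply, QuotientAddGroup.eq_zero_iff,
    AddSubgroup.mem_addSubgroupOf] at h3
  exact h3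

end Fermat.Agent.S33C
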