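/-
S33 / package S33-CONN (helper1), part 4: **powers of function-model orders and the (F3) clause
of the GAMMA export.**

* `s33c_exists_pi_model` : for a model `M` of `X` the functions `f ∘ pr_k` (`f ∈ M`) generate a
  model of `X ^ d` (coordinatewise action), and a point all of whose coordinates are connected is
  connected;
* `s33c_ff_no_trivial_subquotient_pi` : (F3) for subgroups of `X ^ d` with connected coordinates;
* `s33c_F3_of_model` : the same for a model living on a subgroup `C` of a `G_ℚ`-module `J`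
  and subgroups of `J ^ d` with coordinates in `C` (the shape of the GAMMA export).
-/
import Fermat.Agent.Lib.S33.Conn.Sub
import Fermat.Agent.Lib.TW.Flat.Gen

set_option autoImplicit false
set_option linter.style.haveILetI false
set_option linter.unusedSectionVars false

namespace Fermat.Agent.S33C

open Fermat.Agent.TW Fermat.Agent.S05Lib

local notation "Qb" => AlgebraicClosure ℚ
local notation "GQ" => (AlgebraicClosure ℚ ≃ₐ[ℚ] AlgebraicClosure ℚ)

section PiModel

variable {𝔓 : FFPlace} {X : Type*} [AddCommGroup X] {act : GQ → X →+ X}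

/-- the generators of the power model -/
def s33cPiGen (M : FFModel 𝔓 X act) (d : ℕ) : Set ((Fin d → X) → Qb) :=
  {F | ∃ f ∈ M.carrier, ∃ k : Fin d, F = fun x => f (x k)}

/-- **the `d`-th power of a model**; points with connected coordinates are connected -/
theorem s33c_exists_pi_model (M : FFModel 𝔓 X act) (d : ℕ) :
    ∃ M' : FFModel 𝔓 (Fin d → X) (fun σ => (act σ).compLeft (Fin d)),
      ∀ y : Fin d → X, (∀ k, M.OrdGT (y k) 0) → M'.OrdGT y 0 := by
  classical
  set S : Set ((Fin d → X) → Qb) := s33cPiGen M d with hS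
  -- finitely many module generators of `M`
  obtain ⟨T₀, hT₀⟩ := M.fg
  have hT₀M : ∀ t ∈ T₀, t ∈ M.carrier := fun t ht => by
    have : t ∈ Submodule.span 𝔓.W (T₀ : Set (X → Qb)) := Submodule.subset_span ht
    rw [hT₀] at this
    exact this
  set T : Finset ((Fin d → X) → Qb) :=
    (T₀ ×ˢ (Finset.univ : Finset (Fin d))).image (fun tk => fun x => tk.1 (x tk.2)) with hT
  have hTS : (T : Set ((Fin d → X) → Qb)) ⊆ S := by
    intro F hF
    rw [hT, Finset.coe_image] at hF
    obtain ⟨⟨t, k⟩, htk, rfl⟩ := hF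
    rw [Finset.mem_coe, Finset.mem_product] at htk
    exact ⟨t, hT₀M t htk.1, k, rfl⟩
  have hST : S ⊆ Submodule.span 𝔓.W (T : Set ((Fin d → X) → Qb)) := by
    rintro _ ⟨f, hf, k, rfl⟩
    -- pull back along the `k`-th projection
    let L : (X → Qb) →ₗ[𝔓.W] ((Fin d → X) → Qb) :=
      (FFModel.ffPull 𝔓 (fun x : Fin d → X => x k)).toLinearMap
    have hfspan : f ∈ Submodule.span 𝔓.W (T₀ : Set (X → Qb)) := by
      rw [hT₀]
      exact hf
    have h1 : L f ∈ (Submodule.span 𝔓.W (T₀ : Set (X → Qb))).map L := ⟨f, hfspan, rfl⟩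
    rw [Submodule.map_span] at h1
    have h1' : (fun x : Fin d → X => f (x k)) ∈ Submodule.span 𝔓.W (⇑L '' (T₀ : Set (X → Qb))) :=
      h1
    refine Submodule.span_mono ?_ h1'
    rintro _ ⟨t, ht, rfl⟩
    rw [hT, Finset.coe_image]
    exact ⟨(t, k), by simpa using ht, rfl⟩
  have hTint : ∀ t ∈ T, IsIntegral 𝔓.W t := by
    intro F hF
    rw [hT, Finset.mem_image] at hF
    obtain ⟨⟨t, k⟩, htk, rfl⟩ := hF
    rw [Finset.mem_product] at htk
    have h1 : IsIntegral 𝔓.W t := IsIntegral.of_mem_of_fg M.carrier M.fg t (hT₀M t htk.1)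
    exact h1.map (FFModel.ffPull 𝔓 (fun x : Fin d → X => x k))
  have hSeq : ∀ F ∈ S, ∀ σ ∈ 𝔓.I, ∀ x, F (((act σ).compLeft (Fin d)) x) = σ (F x) := by
    rintro _ ⟨f, hf, k, rfl⟩ σ hσ x
    exact M.equivariant f hf σ hσ (x k)
  have hSsep : ∀ x y : Fin d → X, x ≠ y → ∃ F ∈ S, F x ≠ F y := by
    intro x y hxy
    obtain ⟨k, hk⟩ : ∃ k, x k ≠ y k := by
      by_contra hcon
      push Not at hcon
      exact hxy (funext hcon)
    obtain ⟨f, hf, hne⟩ := M.separates _ _ hk
    exact ⟨fun x => f (x k), ⟨f, hf, k, rfl⟩, hne⟩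
  have hScomul : ∀ F ∈ S, FFComulIn (Algebra.adjoin 𝔓.W S) F := by
    rintro _ ⟨f, hf, k, rfl⟩
    obtain ⟨n, g, h, hg, hh, hgh⟩ := M.comul f hf
    exact ⟨n, fun i x => g i (x k), fun i x => h i (x k),
      fun i => Algebra.subset_adjoin ⟨g i, hg i, k, rfl⟩,
      fun i => Algebra.subset_adjoin ⟨h i, hh i, k, rfl⟩, fun x y => hgh (x k) (y k)⟩
  refine ⟨FFModel.ofGenerators S hSeq T hTS hST hTint hSsep hScomul, fun y hy => ?_⟩
  -- connectedness
  let Sy : Subalgebra 𝔓.W ((Fin d → X) → Qb) :=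
    { carrier := {f | 𝔓.v.Ge (f y) 0 ∧ 𝔓.v.Ge (f 0) 0 ∧ 𝔓.v.Gt (f y - f 0) 0}
      mul_mem' := by
        rintro f g ⟨hf1, hf2, hf3⟩ ⟨hg1, hg2, hg3⟩
        refine ⟨?_, ?_, ?_⟩
        · have := hf1.mul hg1
          rwa [zero_add] at this
        · have := hf2.mul hg2
          rwa [zero_add] at this
        · have h1 : (f * g) y - (f * g) 0 = f y * (g y - g 0) + (f y - f 0) * g 0 := by
            simp only [Pi.mul_apply]; ring
          rw [h1]
          have h2 := hf1.mul_gt hg3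
          have h3 := hf3.mul_ge hg2
          rw [zero_add] at h2
          rw [add_zero] at h3
          exact h2.add h3
      add_mem' := by
        rintro f g ⟨hf1, hf2, hf3⟩ ⟨hg1, hg2, hg3⟩
        refine ⟨hf1.add hg1, hf2.add hg2, ?_⟩
        have h1 : (f + g) y - (f + g) 0 = (f y - f 0) + (g y - g 0) := by
          simp only [Pi.add_apply]; ring
        rw [h1]
        exact hf3.add hg3
      algebraMap_mem' := by
        intro w
        have hw : 𝔓.v.Ge ((w : 𝔓.W) : Qb) 0 := ((𝔓.mem_W_iff _).mp w.2).1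
        have h1 : ∀ x : Fin d → X, algebraMap 𝔓.W ((Fin d → X) → Qb) w x = (w : Qb) :=
          fun x => by simp [Algebra.algebraMap_eq_smul_one, Subring.smul_def]
        refine ⟨?_, ?_, ?_⟩
        · rw [h1]; exact hw
        · rw [h1]; exact hw
        · rw [h1, h1, sub_self]; exact QVal.gt_zero' }
  have hle : Algebra.adjoin 𝔓.W S ≤ Sy := by
    refine Algebra.adjoin_le ?_
    rintro _ ⟨f, hf, k, rfl⟩
    refine ⟨M.ge_zero hf _, M.ge_zero hf _, ?_⟩
    have := hy k _ (M.sub_eval_zero_mem hf) (sub_self _)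
    exact this
  intro f hf hf0
  have hf' : f ∈ Algebra.adjoin 𝔓.W S := hf
  have := (hle hf').2.2
  rwa [hf0, sub_zero] at this

/-- **(F3) for powers**: subgroups of `X ^ d` all of whose points have connected coordinates -/
theorem s33c_ff_no_trivial_subquotient_pi [Finite X] (M : FFModel 𝔓 X act) (hp2 : 2 < 𝔓.p)
    (d : ℕ) (A B : AddSubgroup (Fin d → X)) (hconn : ∀ y ∈ B, ∀ k, M.OrdGT (y k) 0)
    (hB : ∀ σ ∈ 𝔓.I, ∀ x ∈ B, (fun k => act σ (x k)) ∈ B)
    (htriv : ∀ σ ∈ 𝔓.I, ∀ x ∈ B, (fun k => act σ (x k)) - x ∈ A) : B ≤ A := by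
  obtain ⟨M', hM'⟩ := s33c_exists_pi_model M d
  exact s33c_ff_no_trivial_subquotient M' hp2 A B (fun y hy => hM' y (hconn y hy)) hB htriv

end PiModel

section Export

variable {𝔓 : FFPlace} {J : Type*} [AddCommGroup J] [DistribMulAction GQ J]

/-- **the (F3) clause of the GAMMA export** from a connected model on a subgroup `C` of `J`:
no subquotient `B / A` of `C ^ d ⊂ J ^ d` has trivial inertia action. -/
theorem s33c_F3_of_model (C : AddSubgroup J) [Finite C] (actC : GQ → ↥C →+ ↥C)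
    (hactC : ∀ σ ∈ 𝔓.I, ∀ y : ↥C, ((actC σ y : ↥C) : J) = σ • (y : J))
    (M : FFModel 𝔓 ↥C actC) (hM : ∀ y, M.OrdGT y 0) (hp2 : 2 < 𝔓.p)
    (d : ℕ) (A B : AddSubgroup (Fin d → J)) (hAB : A ≤ B) (hBC : ∀ x ∈ B, ∀ i, x i ∈ C)
    (htriv : ∀ σ ∈ 𝔓.I, ∀ x ∈ B, σ • x - x ∈ A) : B ≤ A := by
  -- the coordinatewise inclusion
  let ι : (Fin d → ↥C) →+ (Fin d → J) := C.subtype.compLeft (Fin d)
  have hιact : ∀ σ ∈ 𝔓.I, ∀ x : Fin d → ↥C, ι (fun k => actC σ (x k)) = σ • ι x := by
    intro σ hσ x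
    funext k
    exact hactC σ hσ (x k)
  have hBst : ∀ σ ∈ 𝔓.I, ∀ x ∈ B, σ • x ∈ B := by
    intro σ hσ x hx
    have h1 := hAB (htriv σ hσ x hx)
    have h2 : σ • x = (σ • x - x) + x := by abel
    rw [h2]
    exact B.add_mem h1 hx
  have key := s33c_ff_no_trivial_subquotient_pi M hp2 d (A.comap ι) (B.comap ι)
    (fun y _ k => hM (y k))
    (fun σ hσ x hx => by
      rw [AddSubgroup.mem_comap] at hx ⊢
      rw [hιact σ hσ x]
      exact hBst σ hσ _ hx)
    (fun σ hσ x hx => by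
      rw [AddSubgroup.mem_comap] at hx ⊢
      rw [map_sub, hιact σ hσ x]
      exact htriv σ hσ _ hx)
  intro x hx
  have h1 : ι (fun i => (⟨x i, hBC x hx i⟩ : ↥C)) = x := by
    funext i
    rfl
  have h2 : (fun i => (⟨x i, hBC x hx i⟩ : ↥C)) ∈ B.comap ι := by
    rw [AddSubgroup.mem_comap, h1]
    exact hx
  have h3 := key h2
  rw [AddSubgroup.mem_comap, h1] at h3
  exact h3

end Export

end Fermat.Agent.S33C
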