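/-
S33 / package S33-CONN (helper1), part 2: **a function-model order from an ALPHA-type chart
family.**

`𝔓` a place of `ℚ̄` over `p` (`FFPlace`), `X` a finite abelian group with an action `act` of the
inertia group, `m : ι → X → ℚ̄` a finite family of functions which are `𝒱`-valued, `I`-equivariant,
separate the points of `X` and whose comultiplications `m i (x + y)` decompose inside the
`𝒱`-algebra generated by the family (`S33cFam` — the hypotheses of `alph_end`, i.e. what the KEY
lemma of ALPHA produces).  Then the `W`-algebra generated by the family is a model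
(`s33c_exists_model`): the comultiplication descends from `𝒱` to `W = 𝒱 ∩ ℚ̄^I` because its
coefficients in an equivariant basis are fixed by inertia.  Moreover a point `y` at which all
`m i y - m i 0` have positive valuation is connected (`s33c_ordGT`).
-/
import Fermat.Agent.Lib.S33.Conn.Sub
import Fermat.Agent.Lib.TW.Flat.Gen

set_option autoImplicit false
set_option linter.style.haveILetI false
set_option linter.unusedSectionVars false

namespace Fermat.Agent.S33C

open Fermat.Agent.TW Fermat.Agent.S05Lib Polynomial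

local notation "Qb" => AlgebraicClosure ℚ
local notation "GQ" => (AlgebraicClosure ℚ ≃ₐ[ℚ] AlgebraicClosure ℚ)

section Integral

variable (𝔓 : FFPlace)

/-- a value of a `𝒱`-valued function on a finite set whose values are permuted by inertia is
integral over `W` -/
theorem s33c_isIntegral_value {Z : Type*} [Fintype Z] (f : Z → Qb) (hint : ∀ x, f x ∈ 𝔓.P)
    (hperm : ∀ σ ∈ 𝔓.I, ∃ e : Z ≃ Z, ∀ x, f (e x) = σ (f x)) (x₀ : Z) :
    IsIntegral 𝔓.W (f x₀) := by
  classical
  set P : Qb[X] := ∏ x, (X - C (f x)) with hP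
  have hmonic : P.Monic := monic_prod_of_monic _ _ fun x _ => monic_X_sub_C _
  -- the coefficients lie in `𝒱`
  have hcP : ∀ n, P.coeff n ∈ 𝔓.P := by
    intro n
    have h1 : P = (∏ x, (X - C (⟨f x, hint x⟩ : 𝔓.P.toSubring))).map 𝔓.P.toSubring.subtype := by
      rw [hP, Polynomial.map_prod]
      refine Finset.prod_congr rfl fun x _ => ?_
      rw [Polynomial.map_sub, Polynomial.map_X, Polynomial.map_C]
      rfl
    rw [h1, coeff_map]
    exact Subtype.property _
  -- and are fixed by inertia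
  have hcI : ∀ σ ∈ 𝔓.I, ∀ n, σ (P.coeff n) = P.coeff n := by
    intro σ hσ n
    obtain ⟨e, he⟩ := hperm σ hσ
    have h1 : P.map (σ : Qb →+* Qb) = P := by
      rw [hP, Polynomial.map_prod]
      rw [← Equiv.prod_comp e (fun x => X - C (f x))]
      refine Finset.prod_congr rfl fun x _ => ?_
      rw [Polynomial.map_sub, Polynomial.map_X, Polynomial.map_C, he x]
      rfl
    have h2 := congrArg (fun Q : Qb[X] => Q.coeff n) h1
    simp only [coeff_map] at h2
    exact h2
  have hcW : (↑P.coeffs : Set Qb) ⊆ 𝔓.W := by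
    intro c hc
    obtain ⟨n, -, rfl⟩ := Polynomial.mem_coeffs_iff.mp hc
    rw [SetLike.mem_coe, FFPlace.mem_W_iff]
    exact ⟨(𝔓.mem_P_iff _).mp (hcP n), fun σ hσ => hcI σ hσ n⟩
  refine ⟨P.toSubring 𝔓.W hcW, (monic_toSubring P 𝔓.W hcW).mpr hmonic, ?_⟩
  have h3 : (P.toSubring 𝔓.W hcW).map (algebraMap 𝔓.W Qb) = P := map_toSubring P 𝔓.W hcW
  rw [← eval_map, h3, hP, eval_prod]
  refine Finset.prod_eq_zero (Finset.mem_univ x₀) ?_
  rw [eval_sub, eval_X, eval_C, sub_self]

/-- a function with `W`-integral values is integral in the function algebra -/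
theorem s33c_isIntegral_pi {Z : Type*} [Fintype Z] (ψ : Z → Qb)
    (h : ∀ x, IsIntegral 𝔓.W (ψ x)) : IsIntegral 𝔓.W ψ := by
  classical
  choose P hP hP0 using h
  have hP0' : ∀ x, Polynomial.aeval (ψ x) (P x) = 0 := fun x => by
    rw [Polynomial.aeval_def]
    exact hP0 x
  refine ⟨∏ x, P x, Polynomial.monic_prod_of_monic _ _ fun x _ => hP x, ?_⟩
  rw [← Polynomial.aeval_def]
  funext x
  have h1 : (Polynomial.aeval ψ (∏ x, P x)) x
      = (Pi.evalAlgHom 𝔓.W (fun _ : Z => Qb) x) (Polynomial.aeval ψ (∏ x, P x)) := rfl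
  rw [h1, ← Polynomial.aeval_algHom_apply, map_prod]
  exact Finset.prod_eq_zero (Finset.mem_univ x) (hP0' x)

end Integral

section Family

variable (𝔓 : FFPlace) {X : Type*} [AddCommGroup X] (act : GQ → X →+ X)
  {ι : Type*} (m : ι → X → Qb)

/-- the hypotheses on an ALPHA-type chart family (those of `alph_end`, for the place `𝔓`) -/
structure S33cFam : Prop where
  int : ∀ i x, m i x ∈ 𝔓.P
  eqv : ∀ i, ∀ σ ∈ 𝔓.I, ∀ x, m i (act σ x) = σ (m i x)
  sep : ∀ x y : X, x ≠ y → ∃ i, m i x ≠ m i y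
  comul : ∀ i, ∃ (n : ℕ) (a b : Fin n → X → Qb),
    (∀ t, a t ∈ Algebra.adjoin ↥𝔓.P (Set.range m)) ∧
    (∀ t, b t ∈ Algebra.adjoin ↥𝔓.P (Set.range m)) ∧ ∀ x y, m i (x + y) = ∑ t, a t x * b t y

variable {𝔓 act m}

theorem S33cFam.act_act_inv (h : S33cFam 𝔓 act m) {σ : GQ} (hσ : σ ∈ 𝔓.I) (x : X) :
    act σ (act σ⁻¹ x) = x := by
  by_contra hne
  obtain ⟨i, hi⟩ := h.sep _ _ hne
  apply hi
  rw [h.eqv i σ hσ, h.eqv i σ⁻¹ (𝔓.I.inv_mem hσ)]
  simp

theorem S33cFam.act_inv_act (h : S33cFam 𝔓 act m) {σ : GQ} (hσ : σ ∈ 𝔓.I) (x : X) :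
    act σ⁻¹ (act σ x) = x := by
  have := h.act_act_inv (𝔓.I.inv_mem hσ) x
  rwa [inv_inv] at this

/-- the members of the family are integral over `W` -/
theorem S33cFam.isIntegral [Finite X] (h : S33cFam 𝔓 act m) (i : ι) : IsIntegral 𝔓.W (m i) := by
  classical
  cases nonempty_fintype X
  refine s33c_isIntegral_pi 𝔓 (m i) fun x₀ => ?_
  refine s33c_isIntegral_value 𝔓 (m i) (h.int i) (fun σ hσ => ?_) x₀
  exact ⟨⟨fun x => act σ x, fun x => act σ⁻¹ x, fun x => h.act_inv_act hσ x,
    fun x => h.act_act_inv hσ x⟩, fun x => h.eqv i σ hσ x⟩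

/-- **the model generated by a chart family** -/
theorem s33c_exists_model [Finite X] [Finite ι] (h : S33cFam 𝔓 act m) :
    ∃ M : FFModel 𝔓 X act, M.carrier = Algebra.adjoin 𝔓.W (Set.range m) := by
  classical
  cases nonempty_fintype ι
  set S : Set (X → Qb) := Set.range m with hS
  set HW : Subalgebra 𝔓.W (X → Qb) := Algebra.adjoin 𝔓.W S with hHW
  have hU : 𝔓.Unr := 𝔓.lf_unr
  have hSint : ∀ f ∈ S, IsIntegral 𝔓.W f := by
    rintro _ ⟨i, rfl⟩
    exact h.isIntegral i
  have hfg : HW.toSubmodule.FG := fg_adjoin_of_finite (Set.finite_range m) hSint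
  have hSeq : ∀ f ∈ S, ∀ σ ∈ 𝔓.I, ∀ x, f (act σ x) = σ (f x) := by
    rintro _ ⟨i, rfl⟩
    exact h.eqv i
  have hHWeq : ∀ f ∈ HW, ∀ σ ∈ 𝔓.I, ∀ x, f (act σ x) = σ (f x) := by
    intro f hf
    have : HW ≤ ffEquivSub 𝔓 (fun σ => act σ) := Algebra.adjoin_le (fun f hf => hSeq f hf)
    exact this hf
  -- an equivariant basis
  obtain ⟨n, e, heM, hindW, hspan⟩ := FFPlace.Unr.exists_basis_of_fg 𝔓 hU HW.toSubmodule hfg
  have heM' : ∀ j, e j ∈ HW := heM
  have hindQ : LinearIndependent Qb e :=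
    𝔓.linearIndependent_of_equivariant (fun σ => act σ) e (fun j => hHWeq (e j) (heM' j)) hindW
  have coordsW : ∀ f ∈ HW, ∃ c : Fin n → Qb, (∀ j, c j ∈ 𝔓.W) ∧ f = ∑ j, c j • e j := by
    intro f hf
    have hf' : f ∈ Submodule.span 𝔓.W (Set.range e) := by
      rw [hspan]
      exact hf
    obtain ⟨c, hc⟩ := (Submodule.mem_span_range_iff_exists_fun 𝔓.W).mp hf'
    refine ⟨fun j => (c j : Qb), fun j => (c j).2, ?_⟩
    rw [← hc]
    rfl
  -- coordinates of the `𝒱`-algebra
  have coordsP : ∀ F ∈ Algebra.adjoin ↥𝔓.P S, ∃ d : Fin n → Qb, (∀ j, 𝔓.v.Ge (d j) 0) ∧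
      F = ∑ j, d j • e j := by
    intro F hF
    induction hF using Algebra.adjoin_induction with
    | mem f hf =>
      obtain ⟨c, hc, hfc⟩ := coordsW f (Algebra.subset_adjoin hf)
      exact ⟨c, fun j => ((𝔓.mem_W_iff _).mp (hc j)).1, hfc⟩
    | algebraMap c =>
      obtain ⟨w, hw, h1⟩ := coordsW 1 HW.one_mem
      refine ⟨fun j => (c : Qb) * w j, fun j => ?_, ?_⟩
      · have := ((𝔓.mem_P_iff _).mp c.2).mul ((𝔓.mem_W_iff _).mp (hw j)).1
        rwa [zero_add] at this
      · have h2 : algebraMap ↥𝔓.P (X → Qb) c = (c : Qb) • (1 : X → Qb) := by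
          funext x
          rw [Algebra.algebraMap_eq_smul_one, Pi.smul_apply, Pi.smul_apply, Pi.one_apply,
            Algebra.smul_def, mul_one, smul_eq_mul, mul_one]
          rfl
        rw [h2, h1, Finset.smul_sum]
        exact Finset.sum_congr rfl fun j _ => by rw [smul_smul]
    | add F G _ _ hF hG =>
      obtain ⟨d, hd, rfl⟩ := hF
      obtain ⟨d', hd', rfl⟩ := hG
      refine ⟨fun j => d j + d' j, fun j => (hd j).add (hd' j), ?_⟩
      simp only [add_smul, Finset.sum_add_distrib]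
    | mul F G _ _ hF hG =>
      obtain ⟨d, hd, rfl⟩ := hF
      obtain ⟨d', hd', rfl⟩ := hG
      choose w hw hwe using fun j k => coordsW _ (HW.mul_mem (heM' j) (heM' k))
      refine ⟨fun l => ∑ j, ∑ k, d j * d' k * w j k l, fun l => ?_, ?_⟩
      · refine 𝔓.ge_zero_sum _ _ (fun j _ => 𝔓.ge_zero_sum _ _ (fun k _ => ?_))
        have := ((hd j).mul (hd' k)).mul ((𝔓.mem_W_iff _).mp (hw j k l)).1
        simpa using this
      · rw [Finset.sum_mul_sum]
        have hjk : ∀ j k, (d j • e j) * (d' k • e k) = ∑ l, (d j * d' k * w j k l) • e l := by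
          intro j k
          rw [smul_mul_smul_comm, hwe, Finset.smul_sum]
          exact Finset.sum_congr rfl (fun l _ => by rw [smul_smul])
        simp_rw [hjk, Finset.sum_smul]
        conv_rhs => rw [Finset.sum_comm]
        refine Finset.sum_congr rfl (fun j _ => ?_)
        rw [Finset.sum_comm]
  -- descent of the comultiplication
  have hcomul : ∀ f ∈ S, FFComulIn HW f := by
    rintro _ ⟨i, rfl⟩
    obtain ⟨N, a, b, ha, hb, hab⟩ := h.comul i
    choose α hα hαe using fun t => coordsP (a t) (ha t)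
    choose β hβ hβe using fun t => coordsP (b t) (hb t)
    set c : Fin n → Fin n → Qb := fun j l => ∑ t, α t j * β t l with hc
    have hcge : ∀ j l, 𝔓.v.Ge (c j l) 0 := by
      intro j l
      refine 𝔓.ge_zero_sum _ _ (fun t _ => ?_)
      have := (hα t j).mul (hβ t l)
      rwa [zero_add] at this
    have hexp : ∀ x y, m i (x + y) = ∑ j, ∑ l, c j l * (e j x * e l y) := by
      intro x y
      rw [hab]
      have h1 : ∀ t, a t x = ∑ j, α t j * e j x := by
        intro t
        have := congrFun (hαe t) x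
        simpa using this
      have h2 : ∀ t, b t y = ∑ l, β t l * e l y := by
        intro t
        have := congrFun (hβe t) y
        simpa using this
      simp_rw [h1, h2, Finset.sum_mul_sum, hc, Finset.sum_mul]
      rw [Finset.sum_comm]
      refine Finset.sum_congr rfl (fun j _ => ?_)
      rw [Finset.sum_comm]
      refine Finset.sum_congr rfl (fun l _ => Finset.sum_congr rfl (fun t _ => ?_))
      ring
    have hcfix : ∀ σ ∈ 𝔓.I, ∀ j l, σ (c j l) = c j l := by
      intro σ hσ
      have hσi : σ⁻¹ ∈ 𝔓.I := 𝔓.I.inv_mem hσ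
      have hz : ∀ x y : X, ∑ j, ∑ l, (σ (c j l) - c j l) * (e j x * e l y) = 0 := by
        intro x y
        have h1 := hexp (act σ⁻¹ x) (act σ⁻¹ y)
        rw [← map_add, h.eqv i σ⁻¹ hσi] at h1
        have h2 := congrArg σ h1
        rw [map_sum] at h2
        have h3 : σ (σ⁻¹ (m i (x + y))) = m i (x + y) := by
          rw [← AlgEquiv.mul_apply, mul_inv_cancel, AlgEquiv.one_apply]
        rw [h3] at h2
        have h4 : ∀ j l, σ (c j l * (e j (act σ⁻¹ x) * e l (act σ⁻¹ y)))
            = σ (c j l) * (e j x * e l y) := by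
          intro j l
          rw [map_mul, map_mul, hHWeq (e j) (heM' j) σ⁻¹ hσi, hHWeq (e l) (heM' l) σ⁻¹ hσi]
          congr 2
          · rw [← AlgEquiv.mul_apply, mul_inv_cancel, AlgEquiv.one_apply]
          · rw [← AlgEquiv.mul_apply, mul_inv_cancel, AlgEquiv.one_apply]
        simp only [sub_mul, Finset.sum_sub_distrib]
        rw [← hexp x y, sub_eq_zero, h2]
        refine Finset.sum_congr rfl (fun j _ => ?_)
        rw [map_sum]
        exact Finset.sum_congr rfl (fun l _ => (h4 j l).symm)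
      intro j l
      exact sub_eq_zero.mp (ff_indep_two e hindQ (fun j l => σ (c j l) - c j l) hz j l)
    have hcW : ∀ j l, c j l ∈ 𝔓.W := fun j l =>
      (𝔓.mem_W_iff _).mpr ⟨hcge j l, fun σ hσ => hcfix σ hσ j l⟩
    refine ffComulIn_of_fintype (ι := Fin n × Fin n)
      (fun jl => (⟨c jl.1 jl.2, hcW jl.1 jl.2⟩ : 𝔓.W) • e jl.1) (fun jl => e jl.2)
      (fun jl => HW.smul_mem (heM' jl.1) _) (fun jl => heM' jl.2) (fun x y => ?_)
    rw [hexp, Fintype.sum_prod_type]
    refine Finset.sum_congr rfl (fun j _ => Finset.sum_congr rfl (fun l _ => ?_))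
    show c j l * (e j x * e l y) = (c j l * e j x) * e l y
    ring
  -- assemble
  set T : Finset (X → Qb) := Finset.univ.image m with hT
  have hTS : (T : Set (X → Qb)) ⊆ S := by
    intro f hf
    rw [hT, Finset.coe_image, Finset.coe_univ, Set.image_univ] at hf
    exact hf
  have hST : S ⊆ Submodule.span 𝔓.W (T : Set (X → Qb)) := by
    intro f hf
    apply Submodule.subset_span
    rw [hT, Finset.coe_image, Finset.coe_univ, Set.image_univ]
    exact hf
  refine ⟨FFModel.ofGenerators S hSeq T hTS hST (fun t ht => hSint t (hTS ht)) ?_ hcomul, rfl⟩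
  intro x y hxy
  obtain ⟨i, hi⟩ := h.sep x y hxy
  exact ⟨m i, ⟨i, rfl⟩, hi⟩

/-- a point at which all chart functions are congruent to their value at `0` is connected -/
theorem s33c_ordGT (M : FFModel 𝔓 X act) (hM : M.carrier = Algebra.adjoin 𝔓.W (Set.range m))
    (hint : ∀ i x, m i x ∈ 𝔓.P) {y : X} (hy : ∀ i, 𝔓.v.Gt (m i y - m i 0) 0) :
    M.OrdGT y 0 := by
  let Sy : Subalgebra 𝔓.W (X → Qb) :=
    { carrier := {f | 𝔓.v.Ge (f y) 0 ∧ 𝔓.v.Ge (f 0) 0 ∧ 𝔓.v.Gt (f y - f 0) 0}
      mul_mem' := by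
        rintro f g ⟨hf1, hf2, hf3⟩ ⟨hg1, hg2, hg3⟩
        refine ⟨?_, ?_, ?_⟩
        · have := hf1.mul hg1
          rwa [zero_add] at this
        · have := hf2.mul hg2
          rwa [zero_add] at this
        · have h1 : (f * g) y - (f * g) 0 = f y * (g y - g 0) + (f y - f 0) * g 0 := by
            simp only [Pi.mul_apply]; ring
          rw [h1]
          have h2 := hf1.mul_gt hg3
          have h3 := hf3.mul_ge hg2
          rw [zero_add] at h2
          rw [add_zero] at h3
          exact h2.add h3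
      add_mem' := by
        rintro f g ⟨hf1, hf2, hf3⟩ ⟨hg1, hg2, hg3⟩
        refine ⟨hf1.add hg1, hf2.add hg2, ?_⟩
        have h1 : (f + g) y - (f + g) 0 = (f y - f 0) + (g y - g 0) := by
          simp only [Pi.add_apply]; ring
        rw [h1]
        exact hf3.add hg3
      algebraMap_mem' := by
        intro w
        have hw : 𝔓.v.Ge ((w : 𝔓.W) : Qb) 0 := ((𝔓.mem_W_iff _).mp w.2).1
        have h1 : ∀ x : X, algebraMap 𝔓.W (X → Qb) w x = (w : Qb) := fun x => by
          simp [Algebra.algebraMap_eq_smul_one, Subring.smul_def]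
        refine ⟨?_, ?_, ?_⟩
        · rw [h1]; exact hw
        · rw [h1]; exact hw
        · rw [h1, h1, sub_self]; exact QVal.gt_zero' }
  have hle : M.carrier ≤ Sy := by
    rw [hM]
    refine Algebra.adjoin_le ?_
    rintro _ ⟨i, rfl⟩
    exact ⟨(𝔓.mem_P_iff _).mp (hint i y), (𝔓.mem_P_iff _).mp (hint i 0), hy i⟩
  intro f hf hf0
  have := (hle hf).2.2
  rwa [hf0, sub_zero] at this

end Family

end Fermat.Agent.S33C
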