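/-
S33 / package S33-CONN (helper1), part 3: **finding #104 (2) in the vocabulary of ALPHA.**

`𝒱` a valuation subring of `ℚ̄` over an odd prime `p`, `V` a finite `G_ℚ`-module with a chart family
`m : ι → V → ℚ̄` satisfying the hypotheses of `alph_end` (`𝒱`-valued, equivariant for the inertia
group of `𝒱`, separating, comultiplication inside the `𝒱`-algebra generated by the family).  If
all `m i` are constant modulo the maximal ideal on a subgroup `C` ("the cluster of `0`"), then no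
non-zero subquotient `B / A` of `C` (`B` stable under inertia) has trivial inertia action:
`s33c_no_trivial_subquotient`; the same for subgroups of `V ^ d` inside `C ^ d`:
`s33c_no_trivial_subquotient_pi`.
-/
import Fermat.Agent.Lib.S33.Conn.Family

set_option autoImplicit false
set_option linter.style.haveILetI false
set_option linter.unusedSectionVars false

namespace Fermat.Agent.S33C

open Fermat.Agent.TW Fermat.Agent.S05Lib

local notation "Qb" => AlgebraicClosure ℚ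
local notation "GQ" => (AlgebraicClosure ℚ ≃ₐ[ℚ] AlgebraicClosure ℚ)

/-- elements of the maximal ideal have positive valuation -/
theorem s33c_gt_of_valuation_lt_one (𝔓 : FFPlace) {z : Qb} (h : 𝔓.P.valuation z < 1) :
    𝔓.v.Gt z 0 := by
  by_cases hz : z = 0
  · exact Or.inl hz
  · refine Or.inr ?_
    rw [← map_one 𝔓.P.valuation,
      qv_lt_iff 𝔓.P 𝔓.hp 𝔓.hP qv_isAlgebraic_int_qbar hz one_ne_zero,
      qvOrd_one 𝔓.P 𝔓.hp 𝔓.hP] at h
    exact h

section Pi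

variable {𝔓 : FFPlace} {X : Type*} [AddCommGroup X] {act : GQ → X →+ X}
  {ι : Type*} {m : ι → X → Qb}

/-- the chart family of a power `X ^ d` -/
def s33cPiFam (m : ι → X → Qb) (d : ℕ) : ι × Fin d → (Fin d → X) → Qb :=
  fun ik x => m ik.1 (x ik.2)

/-- evaluation at a coordinate, as a map of function algebras -/
def s33cPiPull (𝔓 : FFPlace) (X : Type*) (d : ℕ) (k : Fin d) :
    (X → Qb) →ₐ[↥𝔓.P] ((Fin d → X) → Qb) where
  toFun f := fun x => f (x k)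
  map_one' := rfl
  map_mul' _ _ := rfl
  map_zero' := rfl
  map_add' _ _ := rfl
  commutes' _ := rfl

theorem s33c_piPull_mem (d : ℕ) (k : Fin d) {f : X → Qb}
    (hf : f ∈ Algebra.adjoin ↥𝔓.P (Set.range m)) :
    (fun x : Fin d → X => f (x k)) ∈ Algebra.adjoin ↥𝔓.P (Set.range (s33cPiFam m d)) := by
  have h1 : (Algebra.adjoin ↥𝔓.P (Set.range m)).map (s33cPiPull 𝔓 X d k)
      ≤ Algebra.adjoin ↥𝔓.P (Set.range (s33cPiFam m d)) := by
    rw [AlgHom.map_adjoin]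
    refine Algebra.adjoin_mono ?_
    rintro _ ⟨_, ⟨i, rfl⟩, rfl⟩
    exact ⟨(i, k), rfl⟩
  exact h1 ⟨f, hf, rfl⟩

/-- powers of chart families are chart families -/
theorem S33cFam.pi (h : S33cFam 𝔓 act m) (d : ℕ) :
    S33cFam 𝔓 (fun σ => (act σ).compLeft (Fin d)) (s33cPiFam m d) where
  int := fun ik x => h.int ik.1 (x ik.2)
  eqv := fun ik σ hσ x => h.eqv ik.1 σ hσ (x ik.2)
  sep := by
    intro x y hxy
    obtain ⟨k, hk⟩ : ∃ k, x k ≠ y k := by
      by_contra hcon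
      push Not at hcon
      exact hxy (funext hcon)
    obtain ⟨i, hi⟩ := h.sep _ _ hk
    exact ⟨(i, k), hi⟩
  comul := by
    rintro ⟨i, k⟩
    obtain ⟨n, a, b, ha, hb, hab⟩ := h.comul i
    exact ⟨n, fun t x => a t (x k), fun t x => b t (x k), fun t => s33c_piPull_mem d k (ha t),
      fun t => s33c_piPull_mem d k (hb t), fun x y => hab (x k) (y k)⟩

end Pi

section Main

variable (p : ℕ) [Fact p.Prime] (𝒱 : ValuationSubring Qb) (h𝒱 : 𝒱.LiesOverPrime p)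
  {V : Type} [AddCommGroup V] [Finite V] [DistribMulAction GQ V]
  {ι : Type} [Finite ι] (m : ι → V → Qb)

include h𝒱 in
/-- **finding #104 (2)**: a connected local Hopf order has no non-zero subquotient with trivial
inertia action. -/
theorem s33c_no_trivial_subquotient (hp2 : p ≠ 2)
    (hint : ∀ i x, m i x ∈ 𝒱)
    (hI : ∀ i, ∀ τ ∈ 𝒱.inertiaSubgroupIn ℚ, ∀ x, m i (τ • x) = τ (m i x))
    (hsep : ∀ x y : V, x ≠ y → ∃ i, m i x ≠ m i y)
    (hcomul : ∀ i, ∃ (n : ℕ) (a b : Fin n → V → Qb),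
      (∀ t, a t ∈ Algebra.adjoin ↥𝒱 (Set.range m)) ∧
      (∀ t, b t ∈ Algebra.adjoin ↥𝒱 (Set.range m)) ∧ ∀ x y, m i (x + y) = ∑ t, a t x * b t y)
    (C : AddSubgroup V) (hconn : ∀ i, ∀ x ∈ C, 𝒱.valuation (m i x - m i 0) < 1)
    (A B : AddSubgroup V) (hBC : B ≤ C)
    (hB : ∀ τ ∈ 𝒱.inertiaSubgroupIn ℚ, ∀ x ∈ B, τ • x ∈ B)
    (htriv : ∀ τ ∈ 𝒱.inertiaSubgroupIn ℚ, ∀ x ∈ B, τ • x - x ∈ A) : B ≤ A := by
  have hp : p.Prime := Fact.out
  set 𝔓 : FFPlace := ⟨𝒱, p, hp, h𝒱⟩ with h𝔓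
  have hfam : S33cFam 𝔓 (fun σ => DistribSMul.toAddMonoidHom V σ) m :=
    ⟨hint, hI, hsep, hcomul⟩
  obtain ⟨M, hM⟩ := s33c_exists_model hfam
  have hp2' : 2 < 𝔓.p := lt_of_le_of_ne hp.two_le (Ne.symm hp2)
  refine s33c_ff_no_trivial_subquotient M hp2' A B (fun y hy => ?_) hB htriv
  exact s33c_ordGT M hM hint fun i => s33c_gt_of_valuation_lt_one 𝔓 (hconn i y (hBC hy))

include h𝒱 in
/-- the same for subgroups of a power `V ^ d` -/
theorem s33c_no_trivial_subquotient_pi (hp2 : p ≠ 2)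
    (hint : ∀ i x, m i x ∈ 𝒱)
    (hI : ∀ i, ∀ τ ∈ 𝒱.inertiaSubgroupIn ℚ, ∀ x, m i (τ • x) = τ (m i x))
    (hsep : ∀ x y : V, x ≠ y → ∃ i, m i x ≠ m i y)
    (hcomul : ∀ i, ∃ (n : ℕ) (a b : Fin n → V → Qb),
      (∀ t, a t ∈ Algebra.adjoin ↥𝒱 (Set.range m)) ∧
      (∀ t, b t ∈ Algebra.adjoin ↥𝒱 (Set.range m)) ∧ ∀ x y, m i (x + y) = ∑ t, a t x * b t y)
    (C : AddSubgroup V) (hconn : ∀ i, ∀ x ∈ C, 𝒱.valuation (m i x - m i 0) < 1)
    (d : ℕ) (A B : AddSubgroup (Fin d → V)) (hBC : ∀ x ∈ B, ∀ k, x k ∈ C)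
    (hB : ∀ τ ∈ 𝒱.inertiaSubgroupIn ℚ, ∀ x ∈ B, τ • x ∈ B)
    (htriv : ∀ τ ∈ 𝒱.inertiaSubgroupIn ℚ, ∀ x ∈ B, τ • x - x ∈ A) : B ≤ A := by
  have hp : p.Prime := Fact.out
  set 𝔓 : FFPlace := ⟨𝒱, p, hp, h𝒱⟩ with h𝔓
  have hfam : S33cFam 𝔓 (fun σ => DistribSMul.toAddMonoidHom V σ) m :=
    ⟨hint, hI, hsep, hcomul⟩
  have hfam' := hfam.pi d
  obtain ⟨M, hM⟩ := s33c_exists_model hfam'
  have hp2' : 2 < 𝔓.p := lt_of_le_of_ne hp.two_le (Ne.symm hp2)
  refine s33c_ff_no_trivial_subquotient M hp2' A B (fun y hy => ?_) hB htriv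
  exact s33c_ordGT M hM hfam'.int fun ik =>
    s33c_gt_of_valuation_lt_one 𝔓 (hconn ik.1 (y ik.2) (hBC y hy ik.2))

end Main

end Fermat.Agent.S33C
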